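import Fermat.Prelude.Def_FLTPrelim_FreyPackage
import Fermat.Prelude.Def_FLTPrelim_Modularity
import Mathlib

/-!
# The Frey curve: integral model, discriminant, semistability

The integral Frey curve `P.freyCurveInt` base-changes to `P.freyCurve`, has nonzero discriminant and
is a semistable model.  Consequently modularity of semistable integral Weierstrass curves implies
modularity of the Frey curve.
-/

set_option autoImplicit false

namespace Fermat.Agent.S04.OfSemistable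

open WeierstrassCurve

/-- `a ≡ 3 (mod 4)` as an integer congruence. -/
theorem a_emod_four (P : FreyPackage) : P.a % 4 = 3 := by
  have h4 : (P.a : ZMod 4) = ((3 : ℤ) : ZMod 4) := by
    rw [P.ha4]; rfl
  have h := (ZMod.intCast_eq_intCast_iff_dvd_sub P.a 3 4).1 h4
  have h'' : (4 : ℤ) ∣ 3 - P.a := by simpa using h
  omega

/-- `a ^ p ≡ 3 (mod 4)`. -/
theorem a_pow_emod_four (P : FreyPackage) : P.a ^ P.p % 4 = 3 := by
  have h3 := a_emod_four P
  have hsq : P.a ^ 2 % 4 = 1 := by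
    rw [pow_two, Int.mul_emod, h3]; rfl
  have hk1 : ∀ k : ℕ, (P.a ^ 2) ^ k % 4 = 1 := by
    intro k
    induction k with
    | zero => simp
    | succ n ih => rw [pow_succ, Int.mul_emod, ih, hsq]; rfl
  obtain ⟨k, hk⟩ := P.hp_odd
  rw [hk, pow_succ, pow_mul, Int.mul_emod, hk1, h3]; rfl

/-- `2 ∣ b`. -/
theorem two_dvd_b (P : FreyPackage) : (2 : ℤ) ∣ P.b :=
  (ZMod.intCast_zmod_eq_zero_iff_dvd P.b 2).1 P.hb2

/-- `32 ∣ b ^ p`. -/
theorem thirtytwo_dvd_b_pow (P : FreyPackage) : (32 : ℤ) ∣ P.b ^ P.p := by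
  have h5 : (2 : ℤ) ^ 5 ∣ P.b ^ P.p :=
    (pow_dvd_pow_of_dvd (two_dvd_b P) 5).trans (pow_dvd_pow _ P.hp5)
  norm_num at h5
  exact h5

theorem four_dvd_a₂_num (P : FreyPackage) : (4 : ℤ) ∣ P.b ^ P.p - 1 - P.a ^ P.p := by
  have h1 := a_pow_emod_four P
  have h2 := thirtytwo_dvd_b_pow P
  omega

theorem sixteen_dvd_a₄_num (P : FreyPackage) : (16 : ℤ) ∣ -(P.a ^ P.p) * (P.b ^ P.p) := by
  have h2 : (16 : ℤ) ∣ P.b ^ P.p := (by norm_num : (16 : ℤ) ∣ 32).trans (thirtytwo_dvd_b_pow P)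
  exact Dvd.dvd.mul_left h2 _

theorem four_mul_a₂ (P : FreyPackage) :
    4 * P.freyCurveInt.a₂ = P.b ^ P.p - 1 - P.a ^ P.p :=
  Int.mul_ediv_cancel' (four_dvd_a₂_num P)

theorem sixteen_mul_a₄ (P : FreyPackage) :
    16 * P.freyCurveInt.a₄ = -(P.a ^ P.p) * (P.b ^ P.p) :=
  Int.mul_ediv_cancel' (sixteen_dvd_a₄_num P)

/-- The integral Frey curve base-changes to the rational Frey curve. -/
theorem freyCurveInt_map (P : FreyPackage) :
    P.freyCurveInt.map (Int.castRingHom ℚ) = P.freyCurve := by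
  ext
  · simp [FreyPackage.freyCurveInt, FreyPackage.freyCurve]
  · have h := four_mul_a₂ P
    have h' : (4 : ℚ) * ((P.freyCurveInt.a₂ : ℤ) : ℚ) = (P.b : ℚ) ^ P.p - 1 - (P.a : ℚ) ^ P.p := by
      exact_mod_cast h
    change ((P.freyCurveInt.a₂ : ℤ) : ℚ) = ((P.b : ℚ) ^ P.p - 1 - (P.a : ℚ) ^ P.p) / 4
    rw [← h']; ring
  · simp [FreyPackage.freyCurveInt, FreyPackage.freyCurve]
  · have h := sixteen_mul_a₄ P
    have h' : (16 : ℚ) * ((P.freyCurveInt.a₄ : ℤ) : ℚ) = -((P.a : ℚ) ^ P.p) * ((P.b : ℚ) ^ P.p) := by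
      exact_mod_cast h
    change ((P.freyCurveInt.a₄ : ℤ) : ℚ) = -((P.a : ℚ) ^ P.p) * ((P.b : ℚ) ^ P.p) / 16
    rw [← h']; ring
  · simp [FreyPackage.freyCurveInt, FreyPackage.freyCurve]

/-- The integral Frey curve is an integral model of the rational Frey curve. -/
theorem freyCurveInt_isIntegralModelOf (P : FreyPackage) :
    P.freyCurveInt.IsIntegralModelOf P.freyCurve :=
  ⟨1, by rw [one_smul, freyCurveInt_map]⟩

theorem freyCurveInt_a₁ (P : FreyPackage) : P.freyCurveInt.a₁ = 1 := rfl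
theorem freyCurveInt_a₃ (P : FreyPackage) : P.freyCurveInt.a₃ = 0 := rfl
theorem freyCurveInt_a₆ (P : FreyPackage) : P.freyCurveInt.a₆ = 0 := rfl

/-- `256 Δ = (a^p b^p c^p)^2`. -/
theorem freyCurveInt_Δ (P : FreyPackage) :
    256 * P.freyCurveInt.Δ = (P.a ^ P.p) ^ 2 * (P.b ^ P.p) ^ 2 * (P.c ^ P.p) ^ 2 := by
  have h2 := four_mul_a₂ P
  have h4 := sixteen_mul_a₄ P
  have hc : P.c ^ P.p = P.a ^ P.p + P.b ^ P.p := P.hFLT.symm
  rw [hc]
  simp only [WeierstrassCurve.Δ, WeierstrassCurve.b₂, WeierstrassCurve.b₄, WeierstrassCurve.b₆,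
    WeierstrassCurve.b₈, freyCurveInt_a₁, freyCurveInt_a₃, freyCurveInt_a₆]
  generalize P.freyCurveInt.a₂ = x at *
  generalize P.freyCurveInt.a₄ = y at *
  generalize P.a ^ P.p = A at *
  generalize P.b ^ P.p = B at *
  have hB : B = 4 * x + 1 + A := by linarith
  subst hB
  have : (16 * y) ^ 2 * ((4 * x + 1 + A - A) ^ 2 - 4 * (16 * y)) =
      A ^ 2 * (4 * x + 1 + A) ^ 2 * (A + (4 * x + 1 + A)) ^ 2 := by
    rw [h4]; ring
  linear_combination this

/-- `c₄ = a^{2p} + a^p b^p + b^{2p}`. -/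
theorem freyCurveInt_c₄ (P : FreyPackage) :
    P.freyCurveInt.c₄ = (P.a ^ P.p) ^ 2 + (P.a ^ P.p) * (P.b ^ P.p) + (P.b ^ P.p) ^ 2 := by
  have h2 := four_mul_a₂ P
  have h4 := sixteen_mul_a₄ P
  simp only [WeierstrassCurve.c₄, WeierstrassCurve.b₂, WeierstrassCurve.b₄,
    freyCurveInt_a₁, freyCurveInt_a₃]
  linear_combination (4 * P.freyCurveInt.a₂ + 1 + P.b ^ P.p - P.a ^ P.p) * h2 - 3 * h4

theorem freyCurveInt_Δ_ne_zero (P : FreyPackage) : P.freyCurveInt.Δ ≠ 0 := by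
  intro h
  have h' := freyCurveInt_Δ P
  rw [h, mul_zero] at h'
  have ha : P.a ^ P.p ≠ 0 := pow_ne_zero _ P.ha0
  have hb : P.b ^ P.p ≠ 0 := pow_ne_zero _ P.hb0
  have hc : P.c ^ P.p ≠ 0 := pow_ne_zero _ P.hc0
  exact (mul_ne_zero (mul_ne_zero (pow_ne_zero 2 ha) (pow_ne_zero 2 hb)) (pow_ne_zero 2 hc)) h'.symm

theorem isCoprime_a_pow_b_pow (P : FreyPackage) : IsCoprime (P.a ^ P.p) (P.b ^ P.p) := by
  have h : IsCoprime P.a P.b := by
    have := P.hgcdab
    rw [← Int.coe_gcd] at this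
    exact Int.isCoprime_iff_gcd_eq_one.2 (by exact_mod_cast this)
  exact h.pow

/-- The integral Frey curve is a semistable model. -/
theorem freyCurveInt_isSemistableModel (P : FreyPackage) : P.freyCurveInt.IsSemistableModel := by
  intro q hq hqΔ hqc₄
  have hq' : Prime (q : ℤ) := Nat.prime_iff_prime_int.1 hq
  have hcop := isCoprime_a_pow_b_pow P
  have hnot : ∀ {x y : ℤ}, IsCoprime x y → (q : ℤ) ∣ x → (q : ℤ) ∣ y → False := by
    intro x y hxy hx hy
    exact hq'.not_isUnit (hxy.isUnit_of_dvd' hx hy)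
  rw [freyCurveInt_c₄] at hqc₄
  have hΔ : (q : ℤ) ∣ (P.a ^ P.p) ^ 2 * (P.b ^ P.p) ^ 2 * (P.c ^ P.p) ^ 2 := by
    rw [← freyCurveInt_Δ]; exact Dvd.dvd.mul_left hqΔ _
  have hc : P.c ^ P.p = P.a ^ P.p + P.b ^ P.p := P.hFLT.symm
  rw [hc] at hΔ
  generalize P.a ^ P.p = A at *
  generalize P.b ^ P.p = B at *
  rcases hq'.dvd_or_dvd hΔ with h | h
  · rcases hq'.dvd_or_dvd h with h | h
    · have hA : (q : ℤ) ∣ A := hq'.dvd_of_dvd_pow h
      have hB2 : (q : ℤ) ∣ B ^ 2 := by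
        have : B ^ 2 = (A ^ 2 + A * B + B ^ 2) - A * (A + B) := by ring
        rw [this]; exact dvd_sub hqc₄ (Dvd.dvd.mul_right hA _)
      exact hnot hcop hA (hq'.dvd_of_dvd_pow hB2)
    · have hB : (q : ℤ) ∣ B := hq'.dvd_of_dvd_pow h
      have hA2 : (q : ℤ) ∣ A ^ 2 := by
        have : A ^ 2 = (A ^ 2 + A * B + B ^ 2) - B * (A + B) := by ring
        rw [this]; exact dvd_sub hqc₄ (Dvd.dvd.mul_right hB _)
      exact hnot hcop (hq'.dvd_of_dvd_pow hA2) hB
  · have hC : (q : ℤ) ∣ A + B := hq'.dvd_of_dvd_pow h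
    have hAB : (q : ℤ) ∣ A * B := by
      have : A * B = (A + B) * (A + B) - (A ^ 2 + A * B + B ^ 2) := by ring
      rw [this]; exact dvd_sub (Dvd.dvd.mul_right hC _) hqc₄
    rcases hq'.dvd_or_dvd hAB with hA | hB
    · have hB : (q : ℤ) ∣ B := by
        have : B = (A + B) - A := by ring
        rw [this]; exact dvd_sub hC hA
      exact hnot hcop hA hB
    · have hA : (q : ℤ) ∣ A := by
        have : A = (A + B) - B := by ring
        rw [this]; exact dvd_sub hC hB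
      exact hnot hcop hA hB

/-- Modularity of all semistable integral Weierstrass curves with nonzero discriminant implies
modularity of the Frey curve. -/
theorem freyCurve_isModular_of_semistable_modularity
    (H : ∀ W : WeierstrassCurve ℤ, W.Δ ≠ 0 → W.IsSemistableModel →
      (W.map (Int.castRingHom ℚ)).IsModular)
    (P : FreyPackage) : P.freyCurve.IsModular := by
  rw [← freyCurveInt_map P]
  exact H _ (freyCurveInt_Δ_ne_zero P) (freyCurveInt_isSemistableModel P)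

/-- Nonexistence of Frey packages trivially implies modularity of the Frey curve. -/
theorem freyCurve_isModular_of_isEmpty (H : FreyPackage → False) (P : FreyPackage) :
    P.freyCurve.IsModular := (H P).elim

end Fermat.Agent.S04.OfSemistable
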